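import Fermat.Agent.S16.ToolkitAlg.Trace
import Fermat.Agent.S16.ToolkitAlg.LevelOne
import Fermat.Agent.S23.MF
import Fermat.Agent.S28.QBridge

/-!
# S16, `ℓ = 3`: the quadratic trace identity (owner: helper69)

For `G ∈ M₂(Γ₀(p))` with `q`-expansion `A`, the trace of `G²` to level one is a multiple of `E₄`:
`p • A² + U_p ((U_p A)²) = ((p + 1) a₀²) • E₄`.
Integral form: if `A` has integer coefficients `a`, the same identity holds in `ℤ⟦X⟧`.
-/

set_option autoImplicit false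

namespace Fermat.Agent.S16

open ModularCurve CuspForm UpperHalfPlane ModularForm ModularFormClass EisensteinSeries
open scoped MatrixGroups

variable {p : ℕ} {hp : p ≠ 0}

lemma upSeries_C_mul {R : Type*} [CommSemiring R] (p : ℕ) (c : R) (f : PowerSeries R) :
    upSeries p (PowerSeries.C c * f) = PowerSeries.C c * upSeries p f := by
  ext n
  simp [PowerSeries.coeff_C_mul]

lemma upSeries_C {R : Type*} [CommSemiring R] (p : ℕ) (hp : p ≠ 0) (c : R) :
    upSeries p (PowerSeries.C c : PowerSeries R) = PowerSeries.C c := by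
  ext n
  simp [PowerSeries.coeff_C, hp]

lemma coeff_zero_upSeries {R : Type*} [Semiring R] (p : ℕ) (f : PowerSeries R) :
    PowerSeries.coeff 0 (upSeries p f) = PowerSeries.coeff 0 f := by
  simp

lemma constantCoeff_upSeries {R : Type*} [Semiring R] (p : ℕ) (f : PowerSeries R) :
    PowerSeries.constantCoeff (upSeries p f) = PowerSeries.constantCoeff f := by
  rw [← PowerSeries.coeff_zero_eq_constantCoeff_apply, coeff_zero_upSeries,
    PowerSeries.coeff_zero_eq_constantCoeff_apply]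

/-- The quadratic trace identity over `ℂ`. -/
theorem CuspZeroData.quad_trace (T : CuspZeroData p hp)
    (G : ModularForm (CongruenceSubgroup.Gamma0 p) 2) :
    PowerSeries.C (p : ℂ) * (qExpansion 1 G) ^ 2 +
        upSeries p ((upSeries p (qExpansion 1 G)) ^ 2) =
      PowerSeries.C (((p : ℂ) + 1) * ((qExpansion 1 G).coeff 0) ^ 2) * qExpansion 1 E₄ := by
  have hp' : (p : ℂ) ≠ 0 := Nat.cast_ne_zero.mpr hp
  let H : ModularForm (CongruenceSubgroup.Gamma0 p) 4 := G.mul G
  have hH : (⇑H : ℍ → ℂ) = ⇑G * ⇑G := rfl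
  have hHq : qExpansion 1 H = qExpansion 1 G * qExpansion 1 G :=
    ModularForm.qExpansion_mul one_pos (Fermat.Agent.S23.one_mem_strictPeriods_G0 p) G G
  have hZ : T.Z 4 H = T.Z 2 G * T.Z 2 G := T.Z_mul 2 2 G G H hH
  obtain ⟨e, he⟩ := T.trace_levelOne 4 H
  have h4 := levelOne_wt4 4 rfl e
  rw [T.Z_two G] at hZ
  have hZ' : T.Z 4 H =
      PowerSeries.C (((p : ℂ)⁻¹) ^ 2) * (upSeries p (qExpansion 1 G)) ^ 2 := by
    rw [hZ, PowerSeries.smul_eq_C_mul, map_pow, map_neg]
    ring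
  rw [hHq, hZ', upSeries_C_mul, PowerSeries.smul_eq_C_mul, ← mul_assoc, ← map_mul] at he
  have hc : (p : ℂ) * ((p : ℂ)⁻¹) ^ 2 = (p : ℂ)⁻¹ := by field_simp
  rw [hc] at he
  have h0 : (qExpansion 1 e).coeff 0 = (1 + (p : ℂ)⁻¹) * ((qExpansion 1 G).coeff 0) ^ 2 := by
    rw [he]
    simp only [PowerSeries.coeff_zero_eq_constantCoeff, map_add, map_mul, map_pow,
      constantCoeff_upSeries, PowerSeries.constantCoeff_C]
    ring
  rw [h0, he, PowerSeries.smul_eq_C_mul] at h4
  have hc2 : (p : ℂ) * (p : ℂ)⁻¹ = 1 := mul_inv_cancel₀ hp'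
  have hc3 : (p : ℂ) * ((1 + (p : ℂ)⁻¹) * ((qExpansion 1 G).coeff 0) ^ 2) =
      ((p : ℂ) + 1) * ((qExpansion 1 G).coeff 0) ^ 2 := by
    field_simp
  calc PowerSeries.C (p : ℂ) * (qExpansion 1 G) ^ 2 +
        upSeries p ((upSeries p (qExpansion 1 G)) ^ 2)
      = PowerSeries.C (p : ℂ) * (qExpansion 1 G * qExpansion 1 G +
          PowerSeries.C ((p : ℂ)⁻¹) * upSeries p ((upSeries p (qExpansion 1 G)) ^ 2)) := by
        have e1 : PowerSeries.C (p : ℂ) * (PowerSeries.C ((p : ℂ)⁻¹) *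
            upSeries p ((upSeries p (qExpansion 1 G)) ^ 2)) =
            upSeries p ((upSeries p (qExpansion 1 G)) ^ 2) := by
          rw [← mul_assoc, ← map_mul, hc2, map_one, one_mul]
        rw [mul_add, e1, pow_two]
    _ = PowerSeries.C (p : ℂ) * (PowerSeries.C ((1 + (p : ℂ)⁻¹) *
          ((qExpansion 1 G).coeff 0) ^ 2) * qExpansion 1 E₄) := by rw [h4]
    _ = PowerSeries.C (((p : ℂ) + 1) * ((qExpansion 1 G).coeff 0) ^ 2) * qExpansion 1 E₄ := by
        rw [← mul_assoc, ← map_mul, hc3]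

lemma map_intCast_injective :
    Function.Injective (PowerSeries.map (Int.castRingHom ℂ)) := by
  intro f g h
  ext n
  have := congrArg (PowerSeries.coeff n) h
  simpa using this

/-- The `q`-expansion of a form with integer coefficients `a`. -/
lemma qExpansion_eq_map_mk {Γ : Subgroup (GL (Fin 2) ℝ)} {k : ℤ} (G : ModularForm Γ k)
    (a : ℕ → ℤ) (ha : ∀ n : ℕ, qCoeff G n = (a n : ℂ)) :
    qExpansion 1 G = PowerSeries.map (Int.castRingHom ℂ) (PowerSeries.mk a) := by
  ext n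
  have := ha n
  simpa [qCoeff] using this

/-- The quadratic trace identity over `ℤ`. -/
theorem CuspZeroData.quad_trace_int (T : CuspZeroData p hp)
    (G : ModularForm (CongruenceSubgroup.Gamma0 p) 2) (a : ℕ → ℤ)
    (ha : ∀ n : ℕ, qCoeff G n = (a n : ℂ)) :
    PowerSeries.C (p : ℤ) * (PowerSeries.mk a) ^ 2 +
        upSeries p ((upSeries p (PowerSeries.mk a)) ^ 2) =
      PowerSeries.C (((p : ℤ) + 1) * (a 0) ^ 2) * eisenstein4 := by
  apply map_intCast_injective
  have h := T.quad_trace G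
  rw [qExpansion_eq_map_mk G a ha, Fermat.Agent.S28.QExp.qExpansion_E4] at h
  have hc0 : (PowerSeries.map (Int.castRingHom ℂ) (PowerSeries.mk a)).coeff 0 = (a 0 : ℂ) := by
    simp
  rw [hc0] at h
  rw [map_add, map_mul, map_mul, PowerSeries.map_C, PowerSeries.map_C, ← upSeries_map, map_pow,
    map_pow, ← upSeries_map]
  have e1 : (Int.castRingHom ℂ) (p : ℤ) = (p : ℂ) := by simp
  have e2 : (Int.castRingHom ℂ) (((p : ℤ) + 1) * (a 0) ^ 2) = ((p : ℂ) + 1) * (a 0 : ℂ) ^ 2 := by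
    simp
  rw [e1, e2]
  exact h

/-- `U_p (U_p A) = A` over `ℤ`. -/
theorem CuspZeroData.upSeries_upSeries_int (T : CuspZeroData p hp)
    (G : ModularForm (CongruenceSubgroup.Gamma0 p) 2) (a : ℕ → ℤ)
    (ha : ∀ n : ℕ, qCoeff G n = (a n : ℂ)) :
    upSeries p (upSeries p (PowerSeries.mk a)) = PowerSeries.mk a := by
  apply map_intCast_injective
  have h := T.upSeries_upSeries_two G
  rw [qExpansion_eq_map_mk G a ha] at h
  simpa only [upSeries_map] using h

/-- The swapped form `G'' = -p • G°`, whose `q`-expansion is `U_p A`. -/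
theorem CuspZeroData.exists_swap_two (T : CuspZeroData p hp)
    (G : ModularForm (CongruenceSubgroup.Gamma0 p) 2) :
    ∃ G' : ModularForm (CongruenceSubgroup.Gamma0 p) 2,
      qExpansion 1 G' = upSeries p (qExpansion 1 G) := by
  obtain ⟨G₁, hG₁, -⟩ := T.Z_swap 2 even_two G
  have hp' : (p : ℂ) ≠ 0 := Nat.cast_ne_zero.mpr hp
  refine ⟨(-(p : ℂ)) • G₁, ?_⟩
  have h2 : (((-(p : ℂ)) • G₁ : ModularForm (CongruenceSubgroup.Gamma0 p) 2) : ℍ → ℂ) =
      (-(p : ℂ)) • (G₁ : ℍ → ℂ) := rfl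
  rw [h2, ModularForm.qExpansion_smul one_pos (Fermat.Agent.S23.one_mem_strictPeriods_G0 p),
    hG₁, T.Z_two G, smul_smul]
  have : -(p : ℂ) * -((p : ℂ)⁻¹) = 1 := by field_simp
  rw [this, one_smul]

end Fermat.Agent.S16
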