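import Fermat.Agent.S16.NoCong3.CoreOne

/-!
# S16, `ℓ = 3`, `p ≡ 1 mod 3`: no form `≡ unit mod 3` (owner: helper69)
-/

set_option autoImplicit false

namespace Fermat.Agent.S16

open ModularCurve CuspForm UpperHalfPlane ModularForm ModularFormClass
open scoped MatrixGroups

variable {p : ℕ} {hp : p ≠ 0}

/-- For `G ∈ M₂(Γ₀(p))` with integer coefficients `a`, `3 ∣ a(n)` for `n ≥ 1`:
`9 ∣ (p + 1) a(0) (2 a(n) - 240 a(0) σ₃(n))`. -/
theorem CuspZeroData.three_key (T : CuspZeroData p hp)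
    (G : ModularForm (CongruenceSubgroup.Gamma0 p) 2) (a : ℕ → ℤ)
    (ha : ∀ n : ℕ, qCoeff G n = (a n : ℂ)) (h3 : ∀ n : ℕ, 1 ≤ n → (3 : ℤ) ∣ a n)
    (n : ℕ) (hn : 1 ≤ n) :
    (9 : ℤ) ∣ ((p : ℤ) + 1) * a 0 * (2 * a n - 240 * a 0 * ∑ d ∈ n.divisors, (d : ℤ) ^ 3) := by
  have h := coreOne_dvd p hp (PowerSeries.mk a) (T.upSeries_upSeries_int G a ha)
    (by simpa using T.quad_trace_int G a ha) (by simpa using h3) n hn
  simpa using h

theorem noCong_three_one_aux (p : ℕ) [Fact p.Prime] (hp3 : p % 3 = 1)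
    (T : CuspZeroData p (Fact.out : p.Prime).ne_zero) : NoCong p 3 1 := by
  intro G a ha h3
  have hpp : p.Prime := Fact.out
  have h3' : ∀ n : ℕ, 1 ≤ n → (3 : ℤ) ∣ a n := by
    intro n hn
    simpa using h3 n hn
  show ((3 : ℕ) : ℤ) ∣ a 0
  by_contra h0
  have h0' : ¬ (3 : ℤ) ∣ a 0 := by simpa using h0
  obtain ⟨G', hG'⟩ := T.exists_swap_two G
  have ha' : ∀ k : ℕ, qCoeff G' k = ((fun k => a (p * k)) k : ℂ) := by
    intro k
    show (qExpansion 1 G').coeff k = _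
    rw [hG', coeff_upSeries]
    exact ha (p * k)
  have k1 := T.three_key G a ha h3' p hpp.one_le
  have k2 := T.three_key G' (fun k => a (p * k)) ha'
    (fun n hn => h3' _ (Nat.mul_pos hpp.pos hn)) 1 le_rfl
  simp only [mul_zero, mul_one, Nat.divisors_one, Finset.sum_singleton, Nat.cast_one,
    one_pow] at k2
  have hσ : ∑ d ∈ p.divisors, (d : ℤ) ^ 3 = 1 + (p : ℤ) ^ 3 := by
    rw [hpp.divisors, Finset.sum_pair hpp.one_lt.ne]
    simp
  rw [hσ] at k1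
  have hp3' : ¬ (3 : ℤ) ∣ (p : ℤ) + 1 := by
    intro h
    have : (3 : ℤ) ∣ ((p + 1 : ℕ) : ℤ) := by exact_mod_cast h
    have := Int.natCast_dvd_natCast.mp this
    omega
  have hprime3 : Prime (3 : ℤ) := Int.prime_three
  have hnd : ¬ (3 : ℤ) ∣ ((p : ℤ) + 1) * a 0 := by
    intro h
    rcases hprime3.dvd_mul.mp h with h | h
    · exact hp3' h
    · exact h0' h
  have hcop : IsCoprime (9 : ℤ) (((p : ℤ) + 1) * a 0) := by
    have : IsCoprime (3 : ℤ) (((p : ℤ) + 1) * a 0) := (hprime3.coprime_iff_not_dvd).mpr hnd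
    have h9 : (9 : ℤ) = 3 ^ 2 := by norm_num
    rw [h9]
    exact this.pow_left
  have d1 : (9 : ℤ) ∣ 2 * a p - 240 * a 0 * (1 + (p : ℤ) ^ 3) := by
    refine hcop.dvd_of_dvd_mul_left ?_
    exact k1
  have d2 : (9 : ℤ) ∣ 2 * a p - 240 * a 0 := by
    refine hcop.dvd_of_dvd_mul_left ?_
    simpa using k2
  have d3 : (9 : ℤ) ∣ 240 * a 0 * (p : ℤ) ^ 3 := by
    have := dvd_sub d2 d1
    have e : 2 * a p - 240 * a 0 - (2 * a p - 240 * a 0 * (1 + (p : ℤ) ^ 3)) =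
        240 * a 0 * (p : ℤ) ^ 3 := by ring
    rwa [e] at this
  have d4 : (3 : ℤ) ∣ 80 * a 0 * (p : ℤ) ^ 3 := by
    obtain ⟨t, ht⟩ := d3
    refine ⟨t, ?_⟩
    linarith
  have hp3'' : ¬ (3 : ℤ) ∣ (p : ℤ) := by
    intro h
    have := Int.natCast_dvd_natCast.mp h
    omega
  rcases hprime3.dvd_mul.mp d4 with h | h
  · rcases hprime3.dvd_mul.mp h with h | h
    · norm_num at h
    · exact h0' h
  · exact hp3'' (hprime3.dvd_of_dvd_pow h)

end Fermat.Agent.S16
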