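import Fermat.Agent.S16.ToolkitAlg.Trace

/-!
# S16, `ℓ = 3`: the norm of a form whose conjugates at the cusp `0` are congruent (owner: helper69)

If `B = B₀(X^p) + 3 B₁` with `B₀`, `B₁` having algebraic integer coefficients, then all the
conjugates `B(ζ^j X)` are congruent to `B₀(X^p)` modulo `3`, so the product of the `p + 1`
conjugates `A(X^p)`, `B(ζ^j X)` is congruent to `(A * B₀ ^ p)(X^p)` modulo `3`.
-/

set_option autoImplicit false

namespace Fermat.Agent.S16

open scoped MatrixGroups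

/-- A power series over `ℂ` whose coefficients are algebraic integers. -/
def IsAlgInt (f : PowerSeries ℂ) : Prop := ∀ n : ℕ, IsIntegral ℤ (f.coeff n)

lemma IsAlgInt.add {f g : PowerSeries ℂ} (hf : IsAlgInt f) (hg : IsAlgInt g) :
    IsAlgInt (f + g) := fun n => by
  rw [map_add]
  exact (hf n).add (hg n)

lemma IsAlgInt.mul {f g : PowerSeries ℂ} (hf : IsAlgInt f) (hg : IsAlgInt g) :
    IsAlgInt (f * g) := fun n => by
  rw [PowerSeries.coeff_mul]
  exact IsIntegral.sum _ fun x _ => (hf x.1).mul (hg x.2)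

lemma isAlgInt_one : IsAlgInt 1 := fun n => by
  rw [PowerSeries.coeff_one]
  split_ifs
  · exact isIntegral_one
  · exact isIntegral_zero

lemma IsAlgInt.pow {f : PowerSeries ℂ} (hf : IsAlgInt f) (n : ℕ) : IsAlgInt (f ^ n) := by
  induction n with
  | zero => simpa using isAlgInt_one
  | succ n ih => rw [pow_succ]; exact ih.mul hf

lemma isAlgInt_map_int (f : PowerSeries ℤ) : IsAlgInt (PowerSeries.map (Int.castRingHom ℂ) f) :=
  fun n => by
    rw [PowerSeries.coeff_map]
    exact isIntegral_algebraMap (R := ℤ) (A := ℂ) (x := f.coeff n)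

lemma IsAlgInt.expand {f : PowerSeries ℂ} (hf : IsAlgInt f) (p : ℕ) (hp : p ≠ 0) :
    IsAlgInt (PowerSeries.expand p hp f) := fun n => by
  rw [PowerSeries.coeff_expand]
  split_ifs
  · exact hf _
  · exact isIntegral_zero

lemma IsAlgInt.rescale {f : PowerSeries ℂ} (hf : IsAlgInt f) {a : ℂ} (ha : IsIntegral ℤ a) :
    IsAlgInt (PowerSeries.rescale a f) := fun n => by
  rw [PowerSeries.coeff_rescale]
  exact (ha.pow n).mul (hf n)

lemma isIntegral_zetaP (p : ℕ) (hp : p ≠ 0) : IsIntegral ℤ (zetaP p) :=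
  IsIntegral.of_pow (Nat.pos_of_ne_zero hp) (by rw [zetaP_pow_self p hp]; exact isIntegral_one)

/-- `f ≡ g` modulo `3` (times a series with algebraic integer coefficients). -/
def Cong3 (f g : PowerSeries ℂ) : Prop :=
  ∃ h : PowerSeries ℂ, IsAlgInt h ∧ f = g + PowerSeries.C (3 : ℂ) * h

lemma Cong3.mul {f g f' g' : PowerSeries ℂ} (h : Cong3 f g) (h' : Cong3 f' g')
    (hg : IsAlgInt g) (hf' : IsAlgInt f') : Cong3 (f * f') (g * g') := by
  obtain ⟨y, hy, rfl⟩ := h
  obtain ⟨y', hy', rfl⟩ := h'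
  refine ⟨g * y' + y * (g' + PowerSeries.C (3 : ℂ) * y'), (hg.mul hy').add (hy.mul hf'), ?_⟩
  ring

lemma cong3_refl (f : PowerSeries ℂ) : Cong3 f f :=
  ⟨0, fun n => by simpa using isIntegral_zero, by simp⟩

lemma cong3_prod {ι : Type*} (s : Finset ι) (F : ι → PowerSeries ℂ) (b : PowerSeries ℂ)
    (hb : IsAlgInt b) (hF : ∀ j ∈ s, IsAlgInt (F j)) (h : ∀ j ∈ s, Cong3 (F j) b) :
    Cong3 (∏ j ∈ s, F j) (b ^ s.card) := by
  classical
  induction s using Finset.induction_on with
  | empty => simpa using cong3_refl 1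
  | insert i s hi ih =>
    rw [Finset.prod_insert hi, Finset.card_insert_of_notMem hi, pow_succ, mul_comm (b ^ s.card)]
    have h1 := h i (Finset.mem_insert_self i s)
    have h2 := ih (fun j hj => hF j (Finset.mem_insert_of_mem hj))
      (fun j hj => h j (Finset.mem_insert_of_mem hj))
    refine h1.mul h2 hb ?_
    -- the product is integral
    have : ∀ t : Finset ι, (∀ j ∈ t, IsAlgInt (F j)) → IsAlgInt (∏ j ∈ t, F j) := by
      intro t
      induction t using Finset.induction_on with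
      | empty => intro _; simpa using isAlgInt_one
      | insert i t hi ih =>
        intro ht
        rw [Finset.prod_insert hi]
        exact (ht i (Finset.mem_insert_self i t)).mul
          (ih fun j hj => ht j (Finset.mem_insert_of_mem hj))
    exact this s fun j hj => hF j (Finset.mem_insert_of_mem hj)

lemma rescale_C' (a c : ℂ) : PowerSeries.rescale a (PowerSeries.C c) = PowerSeries.C c := by
  ext n
  rw [PowerSeries.coeff_rescale, PowerSeries.coeff_C]
  split_ifs with h
  · subst h; simp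
  · simp

lemma isAlgInt_C_three : IsAlgInt (PowerSeries.C (3 : ℂ)) := fun n => by
  rw [PowerSeries.coeff_C]
  split_ifs
  · have h : IsIntegral ℤ (algebraMap ℤ ℂ 3) := isIntegral_algebraMap
    simpa using h
  · exact isIntegral_zero

lemma rescale_zetaP_expand (p : ℕ) (hp : p ≠ 0) (j : ℕ) (f : PowerSeries ℂ) :
    PowerSeries.rescale (zetaP p ^ j) (PowerSeries.expand p hp f) = PowerSeries.expand p hp f := by
  ext n
  rw [PowerSeries.coeff_rescale, PowerSeries.coeff_expand]
  split_ifs with h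
  · obtain ⟨m, rfl⟩ := h
    rw [← pow_mul, mul_comm j, mul_assoc, pow_mul, zetaP_pow_self p hp, one_pow, one_mul]
  · simp

lemma esymm_card_eq_prod {R : Type*} [CommSemiring R] (s : Multiset R) :
    s.esymm (Multiset.card s) = s.prod := by
  simp [Multiset.esymm, Multiset.powersetCard_self]

lemma card_conjSeries (p : ℕ) (hp : p ≠ 0) (A B : PowerSeries ℂ) :
    Multiset.card (conjSeries p hp A B) = p + 1 := by
  simp [conjSeries]

lemma prod_conjSeries (p : ℕ) (hp : p ≠ 0) (A B : PowerSeries ℂ) :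
    (conjSeries p hp A B).prod =
      PowerSeries.expand p hp A * ∏ j ∈ Finset.range p, PowerSeries.rescale (zetaP p ^ j) B := by
  rw [conjSeries, Multiset.prod_cons]
  rfl

/-- **Norm congruence.** -/
theorem norm_cong (p : ℕ) (hp : p ≠ 0) (A B₀ B₁ : PowerSeries ℂ) (hA : IsAlgInt A)
    (hB₀ : IsAlgInt B₀) (hB₁ : IsAlgInt B₁) :
    Cong3 ((conjSeries p hp A (PowerSeries.expand p hp B₀ + PowerSeries.C (3 : ℂ) * B₁)).esymm
        (p + 1)) (PowerSeries.expand p hp (A * B₀ ^ p)) := by
  rw [← card_conjSeries p hp A (PowerSeries.expand p hp B₀ + PowerSeries.C (3 : ℂ) * B₁),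
    esymm_card_eq_prod, prod_conjSeries, map_mul, map_pow]
  have hζ : ∀ j : ℕ, IsIntegral ℤ (zetaP p ^ j) := fun j => (isIntegral_zetaP p hp).pow j
  have hresc : ∀ j : ℕ, PowerSeries.rescale (zetaP p ^ j)
      (PowerSeries.expand p hp B₀ + PowerSeries.C (3 : ℂ) * B₁) =
      PowerSeries.expand p hp B₀ + PowerSeries.C (3 : ℂ) * PowerSeries.rescale (zetaP p ^ j) B₁ := by
    intro j
    rw [map_add, map_mul, rescale_zetaP_expand, rescale_C']
  have h3 : IsAlgInt (PowerSeries.C (3 : ℂ)) := isAlgInt_C_three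
  have hprod := cong3_prod (Finset.range p)
    (fun j => PowerSeries.rescale (zetaP p ^ j)
      (PowerSeries.expand p hp B₀ + PowerSeries.C (3 : ℂ) * B₁))
    (PowerSeries.expand p hp B₀) (hB₀.expand p hp)
    (fun j _ => by
      rw [hresc]
      exact (hB₀.expand p hp).add (h3.mul (hB₁.rescale (hζ j))))
    (fun j _ => by
      rw [hresc]
      exact ⟨_, hB₁.rescale (hζ j), rfl⟩)
  rw [Finset.card_range] at hprod
  refine (cong3_refl (PowerSeries.expand p hp A)).mul hprod (hA.expand p hp) ?_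
  -- integrality of the product
  have : ∀ t : Finset ℕ, IsAlgInt (∏ j ∈ t, PowerSeries.rescale (zetaP p ^ j)
      (PowerSeries.expand p hp B₀ + PowerSeries.C (3 : ℂ) * B₁)) := by
    intro t
    classical
    induction t using Finset.induction_on with
    | empty => simpa using isAlgInt_one
    | insert i t hi ih =>
      rw [Finset.prod_insert hi]
      refine IsAlgInt.mul ?_ ih
      rw [hresc]
      exact (hB₀.expand p hp).add (h3.mul (hB₁.rescale (hζ i)))
  exact this _

/-- The additive subgroup `3 · (algebraic integers)` of `ℂ`. -/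
def threeAlgInt : AddSubgroup ℂ where
  carrier := {x | ∃ y : ℂ, IsIntegral ℤ y ∧ x = 3 * y}
  zero_mem' := ⟨0, isIntegral_zero, by simp⟩
  add_mem' := by
    rintro _ _ ⟨y, hy, rfl⟩ ⟨z, hz, rfl⟩
    exact ⟨y + z, hy.add hz, by ring⟩
  neg_mem' := by
    rintro _ ⟨y, hy, rfl⟩
    exact ⟨-y, hy.neg, by ring⟩

lemma mem_threeAlgInt {x : ℂ} : x ∈ threeAlgInt ↔ ∃ y : ℂ, IsIntegral ℤ y ∧ x = 3 * y := Iff.rfl

/-- An integer which is three times an algebraic integer is divisible by `3`. -/
lemma int_dvd_of_mem_threeAlgInt {m : ℤ} (h : (m : ℂ) ∈ threeAlgInt) : (3 : ℤ) ∣ m := by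
  obtain ⟨y, hy, hm⟩ := h
  have hy' : y = algebraMap ℚ ℂ ((m : ℚ) / 3) := by
    have : y = (m : ℂ) / 3 := by rw [hm]; field_simp
    rw [this]
    simp
  rw [hy'] at hy
  have hq : IsIntegral ℤ ((m : ℚ) / 3) :=
    (isIntegral_algebraMap_iff (algebraMap ℚ ℂ).injective).mp hy
  obtain ⟨z, hz⟩ := IsIntegrallyClosed.isIntegral_iff.mp hq
  refine ⟨z, ?_⟩
  have h3 : (m : ℚ) = 3 * (z : ℚ) := by
    have : ((z : ℤ) : ℚ) = (m : ℚ) / 3 := by simpa using hz
    rw [this]; field_simp
  exact_mod_cast h3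

lemma coeff_mem_threeAlgInt_of_cong3 {f g : PowerSeries ℂ} (h : Cong3 f g) (n : ℕ) :
    f.coeff n - g.coeff n ∈ threeAlgInt := by
  obtain ⟨y, hy, rfl⟩ := h
  refine ⟨y.coeff n, hy n, ?_⟩
  rw [map_add, PowerSeries.coeff_C_mul]
  ring

end Fermat.Agent.S16
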