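import Fermat.Agent.S16.NoCong3.CoreTwo
import Fermat.Agent.S16.NoCong3.NormCong

/-!
# S16, `ℓ = 3`: no form `≡ unit mod 9` (any `p ≠ 3`) (owner: helper69)

Norm argument: `F = (p² G² - c² E₄)/3 ∈ M₄(Γ₀(p))` has integral expansions at both cusps, the
expansion at `0` is `≡ B₀(X^p) mod 3` with `B₀ = -80 c² ∑ σ₃(n) Xⁿ`.  So the norm of `F` (a level
one form of weight `4 (p + 1)`) is `≡ AF * B₀ ^ p mod 3`, which vanishes to order `≥ p > (p+1)/3`
but is nonzero modulo `3`; this contradicts the Sturm bound in level one.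
-/

set_option autoImplicit false

namespace Fermat.Agent.S16

open ModularCurve CuspForm UpperHalfPlane ModularForm ModularFormClass EisensteinSeries
open scoped MatrixGroups

variable {p : ℕ} {hp : p ≠ 0}

/-- `E₄` as a form on `Γ₀(p)`. -/
lemma exists_E4_level (p : ℕ) :
    ∃ E : ModularForm (CongruenceSubgroup.Gamma0 p) 4, (⇑E : ℍ → ℂ) = ⇑E₄ :=
  (Fermat.Agent.S23.IsMF.of E₄).mono (Fermat.Agent.S23.G0_le_SL p)

/-- The form `F = (p² G² - c² E₄)/3` and its two expansions. -/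
theorem CuspZeroData.exists_F (T : CuspZeroData p hp)
    (G : ModularForm (CongruenceSubgroup.Gamma0 p) 2) (c : ℂ) :
    ∃ F : ModularForm (CongruenceSubgroup.Gamma0 p) 4,
      PowerSeries.C (3 : ℂ) * qExpansion 1 F =
        PowerSeries.C ((p : ℂ) ^ 2) * (qExpansion 1 G) ^ 2 -
          PowerSeries.C (c ^ 2) * qExpansion 1 E₄ ∧
      PowerSeries.C (3 : ℂ) * T.Z 4 F =
        (upSeries p (qExpansion 1 G)) ^ 2 -
          PowerSeries.C (c ^ 2) * PowerSeries.expand p hp (qExpansion 1 E₄) := by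
  have hp' : (p : ℂ) ≠ 0 := Nat.cast_ne_zero.mpr hp
  let H : ModularForm (CongruenceSubgroup.Gamma0 p) 4 := G.mul G
  have hH : (⇑H : ℍ → ℂ) = ⇑G * ⇑G := rfl
  obtain ⟨E, hE⟩ := exists_E4_level p
  have h1 := Fermat.Agent.S23.one_mem_strictPeriods_G0 p
  have hHq : qExpansion 1 H = qExpansion 1 G * qExpansion 1 G :=
    ModularForm.qExpansion_mul one_pos h1 G G
  have hZH : T.Z 4 H = T.Z 2 G * T.Z 2 G := T.Z_mul 2 2 G G H hH
  have hZE : T.Z 4 E = PowerSeries.expand p hp (qExpansion 1 E₄) := T.Z_levelOne 4 E₄ E hE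
  let F₁ : ModularForm (CongruenceSubgroup.Gamma0 p) 4 := ((p : ℂ) ^ 2) • H
  let F₂ : ModularForm (CongruenceSubgroup.Gamma0 p) 4 := (-(c ^ 2)) • E
  let F : ModularForm (CongruenceSubgroup.Gamma0 p) 4 := ((3 : ℂ)⁻¹) • (F₁ + F₂)
  have hF₁q : qExpansion 1 F₁ = ((p : ℂ) ^ 2) • (qExpansion 1 G * qExpansion 1 G) := by
    have : (⇑F₁ : ℍ → ℂ) = ((p : ℂ) ^ 2) • (⇑H : ℍ → ℂ) := rfl
    rw [this, ModularForm.qExpansion_smul one_pos h1, hHq]
  have hF₂q : qExpansion 1 F₂ = (-(c ^ 2)) • qExpansion 1 E₄ := by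
    have : (⇑F₂ : ℍ → ℂ) = (-(c ^ 2)) • (⇑E : ℍ → ℂ) := rfl
    rw [this, ModularForm.qExpansion_smul one_pos h1, hE]
  have hFq : qExpansion 1 F = ((3 : ℂ)⁻¹) • (qExpansion 1 F₁ + qExpansion 1 F₂) := by
    have e1 : (⇑F : ℍ → ℂ) = ((3 : ℂ)⁻¹) • (⇑(F₁ + F₂) : ℍ → ℂ) := rfl
    have e2 : (⇑(F₁ + F₂) : ℍ → ℂ) = (⇑F₁ : ℍ → ℂ) + ⇑F₂ := rfl
    rw [e1, ModularForm.qExpansion_smul one_pos h1, e2,
      ModularForm.qExpansion_add one_pos h1]
  have hFZ : T.Z 4 F = ((3 : ℂ)⁻¹) • (((p : ℂ) ^ 2) • (T.Z 2 G * T.Z 2 G) +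
      (-(c ^ 2)) • PowerSeries.expand p hp (qExpansion 1 E₄)) := by
    rw [T.Z_smul, T.Z_add, T.Z_smul, T.Z_smul, hZH, hZE]
  have h3 : PowerSeries.C (3 : ℂ) * PowerSeries.C ((3 : ℂ)⁻¹) = 1 := by
    rw [← map_mul]; norm_num
  refine ⟨F, ?_, ?_⟩
  · rw [hFq, hF₁q, hF₂q]
    simp only [PowerSeries.smul_eq_C_mul, map_neg]
    rw [← mul_assoc, h3]
    ring
  · rw [hFZ, T.Z_two G]
    simp only [PowerSeries.smul_eq_C_mul, map_neg]
    rw [← mul_assoc, h3]
    have hpp : PowerSeries.C ((p : ℂ) ^ 2) * (PowerSeries.C ((p : ℂ)⁻¹) *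
        PowerSeries.C ((p : ℂ)⁻¹)) = 1 := by
      rw [← map_mul, ← map_mul]
      have : (p : ℂ) ^ 2 * ((p : ℂ)⁻¹ * (p : ℂ)⁻¹) = 1 := by field_simp
      rw [this, map_one]
    have : PowerSeries.C ((p : ℂ) ^ 2) *
        (-PowerSeries.C ((p : ℂ)⁻¹) * upSeries p (qExpansion 1 G) *
          (-PowerSeries.C ((p : ℂ)⁻¹) * upSeries p (qExpansion 1 G))) =
        (PowerSeries.C ((p : ℂ) ^ 2) * (PowerSeries.C ((p : ℂ)⁻¹) *
        PowerSeries.C ((p : ℂ)⁻¹))) * (upSeries p (qExpansion 1 G)) ^ 2 := by ring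
    rw [one_mul, this, hpp]
    ring

lemma map_int_C (c : ℤ) :
    PowerSeries.map (Int.castRingHom ℂ) (PowerSeries.C c) = PowerSeries.C (c : ℂ) := by
  rw [PowerSeries.map_C]; simp

lemma map_identity_AF (p : ℕ) (A E AF : PowerSeries ℤ) (c : ℤ)
    (h : PowerSeries.C ((p : ℤ) ^ 2) * A ^ 2 - PowerSeries.C (c ^ 2) * E =
      PowerSeries.C (3 : ℤ) * AF) :
    PowerSeries.C ((p : ℂ) ^ 2) * (PowerSeries.map (Int.castRingHom ℂ) A) ^ 2 -
        PowerSeries.C ((c : ℂ) ^ 2) * PowerSeries.map (Int.castRingHom ℂ) E =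
      PowerSeries.C (3 : ℂ) * PowerSeries.map (Int.castRingHom ℂ) AF := by
  have := congrArg (PowerSeries.map (Int.castRingHom ℂ)) h
  have e3 : (PowerSeries.map (Int.castRingHom ℂ)) (3 : PowerSeries ℤ) = PowerSeries.C (3 : ℂ) := by
    rw [show (3 : PowerSeries ℤ) = PowerSeries.C (3 : ℤ) by simp, PowerSeries.map_C]
    simp
  simpa [e3] using this

lemma map_identity_B (p : ℕ) (hp : p ≠ 0) (U E B₀ B₁ : PowerSeries ℤ) (c : ℤ)
    (h : U ^ 2 - PowerSeries.C (c ^ 2) * PowerSeries.expand p hp E =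
      PowerSeries.C (3 : ℤ) * (PowerSeries.expand p hp B₀ + PowerSeries.C (3 : ℤ) * B₁)) :
    (PowerSeries.map (Int.castRingHom ℂ) U) ^ 2 -
        PowerSeries.C ((c : ℂ) ^ 2) *
          PowerSeries.expand p hp (PowerSeries.map (Int.castRingHom ℂ) E) =
      PowerSeries.C (3 : ℂ) * (PowerSeries.expand p hp (PowerSeries.map (Int.castRingHom ℂ) B₀) +
        PowerSeries.C (3 : ℂ) * PowerSeries.map (Int.castRingHom ℂ) B₁) := by
  have := congrArg (PowerSeries.map (Int.castRingHom ℂ)) h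
  have e3 : (PowerSeries.map (Int.castRingHom ℂ)) (3 : PowerSeries ℤ) = PowerSeries.C (3 : ℂ) := by
    rw [show (3 : PowerSeries ℤ) = PowerSeries.C (3 : ℤ) by simp, PowerSeries.map_C]
    simp
  simpa [e3] using this

lemma C_three_mul_cancel {f g : PowerSeries ℂ}
    (h : PowerSeries.C (3 : ℂ) * f = PowerSeries.C (3 : ℂ) * g) : f = g := by
  have h3 : PowerSeries.C ((3 : ℂ)⁻¹) * PowerSeries.C (3 : ℂ) = 1 := by
    rw [← map_mul]; norm_num
  have := congrArg (fun x => PowerSeries.C ((3 : ℂ)⁻¹) * x) h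
  simpa only [← mul_assoc, h3, one_mul] using this

theorem noCong_three_two_aux (p : ℕ) [Fact p.Prime] (hp5 : 5 ≤ p)
    (T : CuspZeroData p (Fact.out : p.Prime).ne_zero) : NoCong p 3 2 := by
  intro G a ha h9
  have hpp : p.Prime := Fact.out
  have hp0 : p ≠ 0 := hpp.ne_zero
  have h9' : ∀ n : ℕ, 1 ≤ n → (9 : ℤ) ∣ a n := by
    intro n hn
    have := h9 n hn
    norm_num at this
    exact this
  show ((3 : ℕ) : ℤ) ∣ a 0
  by_contra h0
  have h0' : ¬ (3 : ℤ) ∣ a 0 := by simpa using h0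
  have hp3 : ¬ (3 : ℤ) ∣ (p : ℤ) := by
    intro h
    have h' := Int.natCast_dvd_natCast.mp h
    have := (Nat.prime_dvd_prime_iff_eq Nat.prime_three hpp).mp h'
    omega
  -- the integral series
  set A : PowerSeries ℤ := PowerSeries.mk a with hA
  have hAq : qExpansion 1 G = PowerSeries.map (Int.castRingHom ℂ) A :=
    qExpansion_eq_map_mk G a ha
  have hA0 : A.coeff 0 = a 0 := by simp [hA]
  have hA9 : ∀ n : ℕ, 1 ≤ n → (9 : ℤ) ∣ A.coeff n := by
    intro n hn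
    simpa [hA] using h9' n hn
  have hU9 : ∀ n : ℕ, 1 ≤ n → (9 : ℤ) ∣ (upSeries p A).coeff n := by
    intro n hn
    rw [coeff_upSeries]
    exact hA9 _ (Nat.mul_pos hpp.pos hn)
  have hU0 : (upSeries p A).coeff 0 = a 0 := by
    rw [coeff_zero_upSeries, hA0]
  obtain ⟨AF, hAF, hAF1⟩ := exists_AF p hp3 A hA9
  obtain ⟨B₁, hB₁⟩ := exists_B1 p hp0 (upSeries p A) hU9
  rw [hA0] at hAF hAF1
  rw [hU0] at hB₁
  obtain ⟨B₀, hB₀⟩ : ∃ B₀ : PowerSeries ℤ,
      B₀ = PowerSeries.C (-80 * (a 0) ^ 2) * sigma3Series := ⟨_, rfl⟩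
  rw [← hB₀] at hB₁
  -- the form `F`
  obtain ⟨F, hFq, hFZ⟩ := T.exists_F G (a 0 : ℂ)
  have hFq' : qExpansion 1 F = PowerSeries.map (Int.castRingHom ℂ) AF := by
    apply C_three_mul_cancel
    rw [hFq, hAq, Fermat.Agent.S28.QExp.qExpansion_E4]
    exact map_identity_AF p A eisenstein4 AF (a 0) hAF
  have hFZ' : T.Z 4 F = PowerSeries.expand p hp0 (PowerSeries.map (Int.castRingHom ℂ) B₀) +
      PowerSeries.C (3 : ℂ) * PowerSeries.map (Int.castRingHom ℂ) B₁ := by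
    apply C_three_mul_cancel
    rw [hFZ, hAq, Fermat.Agent.S28.QExp.qExpansion_E4, upSeries_map]
    exact map_identity_B p hp0 (upSeries p A) eisenstein4 B₀ B₁ (a 0) hB₁
  -- the norm
  obtain ⟨e, he⟩ := T.esymm_conj 4 F (p + 1)
  rw [hFq', hFZ'] at he
  have hcong := norm_cong p hp0 _ _ _ (isAlgInt_map_int AF) (isAlgInt_map_int B₀)
    (isAlgInt_map_int B₁)
  rw [← he] at hcong
  have hcoeff : ∀ n : ℕ, (qExpansion 1 e).coeff n -
      (((AF * B₀ ^ p).coeff n : ℤ) : ℂ) ∈ threeAlgInt := by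
    intro n
    have := coeff_mem_threeAlgInt_of_cong3 hcong (p * n)
    rw [PowerSeries.coeff_expand_mul, PowerSeries.coeff_expand_mul, ← map_pow, ← map_mul,
      PowerSeries.coeff_map] at this
    simpa using this
  -- low coefficients vanish
  have hB₀0 : PowerSeries.constantCoeff B₀ = 0 := by
    rw [hB₀, map_mul, ← PowerSeries.coeff_zero_eq_constantCoeff_apply sigma3Series,
      coeff_zero_sigma3Series, mul_zero]
  have hlow : ∀ n : ℕ, n < p → (AF * B₀ ^ p).coeff n = 0 := by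
    have hdvd : (PowerSeries.X : PowerSeries ℤ) ^ p ∣ AF * B₀ ^ p :=
      Dvd.dvd.mul_left (pow_dvd_pow_of_dvd (PowerSeries.X_dvd_iff.mpr hB₀0) p) _
    exact PowerSeries.X_pow_dvd_iff.mp hdvd
  -- Sturm
  have hall : ∀ n : ℕ, (qExpansion 1 e).coeff n ∈ threeAlgInt := by
    refine levelOne_coeff_mem _ e threeAlgInt fun j hj => ?_
    have hjp : j < p := by
      have : (12 : ℤ) * j ≤ 4 * ((p : ℤ) + 1) := by
        have := hj
        push_cast at this
        linarith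
      omega
    have := hcoeff j
    rw [hlow j hjp] at this
    simpa using this
  have hdiv : ∀ n : ℕ, (3 : ℤ) ∣ (AF * B₀ ^ p).coeff n := by
    intro n
    apply int_dvd_of_mem_threeAlgInt
    have h1 := hcoeff n
    have h2 := hall n
    have := threeAlgInt.sub_mem h2 h1
    simpa using this
  -- reduce modulo 3
  have : Fact (Nat.Prime 3) := ⟨Nat.prime_three⟩
  have hzero : PowerSeries.map (Int.castRingHom (ZMod 3)) (AF * B₀ ^ p) = 0 := by
    ext n
    rw [PowerSeries.coeff_map, map_zero]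
    exact (ZMod.intCast_zmod_eq_zero_iff_dvd _ 3).mpr (by exact_mod_cast hdiv n)
  rw [map_mul, map_pow] at hzero
  have hc2 : ¬ (3 : ℤ) ∣ 80 * (a 0) ^ 2 := by
    intro h
    rcases Int.prime_three.dvd_mul.mp h with h | h
    · norm_num at h
    · exact h0' (Int.prime_three.dvd_of_dvd_pow h)
  rcases mul_eq_zero.mp hzero with h | h
  · have h1 := congrArg (PowerSeries.coeff 1) h
    rw [PowerSeries.coeff_map, map_zero] at h1
    have h2 : (3 : ℤ) ∣ AF.coeff 1 := by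
      have := (ZMod.intCast_zmod_eq_zero_iff_dvd (AF.coeff 1) 3).mp (by simpa using h1)
      exact_mod_cast this
    exact hc2 ((dvd_add_right h2).mp hAF1)
  · have h' := pow_eq_zero_iff (hpp.ne_zero) |>.mp h
    have h1 := congrArg (PowerSeries.coeff 1) h'
    rw [PowerSeries.coeff_map, map_zero, hB₀, PowerSeries.coeff_C_mul,
      coeff_one_sigma3Series, mul_one] at h1
    have h2 : (3 : ℤ) ∣ -80 * (a 0) ^ 2 := by
      have := (ZMod.intCast_zmod_eq_zero_iff_dvd (-80 * (a 0) ^ 2) 3).mp (by simpa using h1)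
      exact_mod_cast this
    apply hc2
    have : (3 : ℤ) ∣ -(-80 * (a 0) ^ 2) := (dvd_neg).mpr h2
    simpa using this

end Fermat.Agent.S16
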