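import Fermat.Agent.S16.NoCong3.Quad

/-!
# S16, `ℓ = 3`, `p ≡ 1 mod 3`: arithmetic core (owner: helper69)

From the quadratic trace identity: if `3 ∣ a(n)` for `n ≥ 1` then
`9 ∣ (p + 1) a(0) (2 a(n) - 240 a(0) σ₃(n))` for all `n ≥ 1`.
-/

set_option autoImplicit false

namespace Fermat.Agent.S16

open ModularCurve

/-- If all higher coefficients of `A` are divisible by `3`, then `(A²)_n ≡ 2 a₀ a_n mod 9`. -/
lemma sq_coeff_mod9 (A : PowerSeries ℤ) (h3 : ∀ n : ℕ, 1 ≤ n → (3 : ℤ) ∣ A.coeff n) (n : ℕ)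
    (hn : 1 ≤ n) : (9 : ℤ) ∣ (A ^ 2).coeff n - 2 * A.coeff 0 * A.coeff n := by
  obtain ⟨c, hc⟩ : ∃ c : ℤ, c = A.coeff 0 := ⟨_, rfl⟩
  let D₃ : PowerSeries ℤ := PowerSeries.mk fun m => if m = 0 then 0 else A.coeff m / 3
  have hA : A = PowerSeries.C c + PowerSeries.C (3 : ℤ) * D₃ := by
    ext m
    by_cases hm : m = 0
    · subst hm
      simp [D₃, hc]
    · obtain ⟨t, ht⟩ := h3 m (by omega)
      rw [map_add, PowerSeries.coeff_C, if_neg hm, zero_add, PowerSeries.coeff_C_mul,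
        PowerSeries.coeff_mk, if_neg hm, ht, Int.mul_ediv_cancel_left _ (by norm_num)]
  have hsq : A ^ 2 = PowerSeries.C (c ^ 2) + PowerSeries.C (2 * c) * (PowerSeries.C (3 : ℤ) * D₃)
      + PowerSeries.C (9 : ℤ) * D₃ ^ 2 := by
    calc A ^ 2 = (PowerSeries.C c + PowerSeries.C (3 : ℤ) * D₃) ^ 2 := by rw [← hA]
      _ = _ := by
        simp only [map_pow, map_mul]
        have : (PowerSeries.C (9 : ℤ) : PowerSeries ℤ) = PowerSeries.C 3 * PowerSeries.C 3 := by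
          rw [← map_mul]; norm_num
        rw [this]
        have h2 : (PowerSeries.C (2 : ℤ) : PowerSeries ℤ) = 2 := by
          simp
        rw [h2]
        ring
  have hn0 : n ≠ 0 := by omega
  have hD : (PowerSeries.C (3 : ℤ) * D₃).coeff n = A.coeff n := by
    have := congrArg (PowerSeries.coeff n) hA
    rw [map_add, PowerSeries.coeff_C, if_neg hn0, zero_add] at this
    exact this.symm
  have hcoef : (A ^ 2).coeff n = 2 * c * A.coeff n + 9 * (D₃ ^ 2).coeff n := by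
    rw [hsq, map_add, map_add, PowerSeries.coeff_C, if_neg hn0, zero_add,
      PowerSeries.coeff_C_mul, hD, PowerSeries.coeff_C_mul]
  rw [hcoef, ← hc]
  exact ⟨(D₃ ^ 2).coeff n, by ring⟩

/-- The coefficient form of the quadratic identity modulo `9`. -/
theorem coreOne_dvd (p : ℕ) (hp0 : p ≠ 0) (A : PowerSeries ℤ)
    (hL : upSeries p (upSeries p A) = A)
    (hQ : PowerSeries.C (p : ℤ) * A ^ 2 + upSeries p ((upSeries p A) ^ 2) =
      PowerSeries.C (((p : ℤ) + 1) * (A.coeff 0) ^ 2) * eisenstein4)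
    (h3 : ∀ n : ℕ, 1 ≤ n → (3 : ℤ) ∣ A.coeff n) (n : ℕ) (hn : 1 ≤ n) :
    (9 : ℤ) ∣ ((p : ℤ) + 1) * A.coeff 0 *
      (2 * A.coeff n - 240 * A.coeff 0 * ∑ d ∈ n.divisors, (d : ℤ) ^ 3) := by
  have hn0 : n ≠ 0 := by omega
  have hU3 : ∀ m : ℕ, 1 ≤ m → (3 : ℤ) ∣ (upSeries p A).coeff m := by
    intro m hm
    rw [coeff_upSeries]
    exact h3 _ (Nat.mul_pos (Nat.pos_of_ne_zero hp0) hm)
  have h1 := sq_coeff_mod9 A h3 n hn
  have h2 := sq_coeff_mod9 (upSeries p A) hU3 (p * n) (Nat.mul_pos (Nat.pos_of_ne_zero hp0) hn)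
  have hU0 : (upSeries p A).coeff 0 = A.coeff 0 := coeff_zero_upSeries p A
  have hUU : (upSeries p A).coeff (p * n) = A.coeff n := by
    have := congrArg (PowerSeries.coeff n) hL
    simpa using this
  rw [hU0, hUU] at h2
  have h4 := congrArg (PowerSeries.coeff n) hQ
  rw [map_add, PowerSeries.coeff_C_mul, coeff_upSeries, PowerSeries.coeff_C_mul, eisenstein4,
    PowerSeries.coeff_mk, if_neg hn0] at h4
  obtain ⟨x, hx⟩ := h1
  obtain ⟨y, hy⟩ := h2
  refine ⟨-((p : ℤ) * x + y), ?_⟩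
  have e1 : (A ^ 2).coeff n = 2 * A.coeff 0 * A.coeff n + 9 * x := by linarith
  have e2 : ((upSeries p A) ^ 2).coeff (p * n) = 2 * A.coeff 0 * A.coeff n + 9 * y := by
    linarith
  rw [e1, e2] at h4
  linear_combination h4

end Fermat.Agent.S16
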