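import Fermat.Agent.S16.NoCong3.CoreOne

/-!
# S16, `ℓ = 3`, modulo `9`: integral power series for the norm argument (owner: helper69)

`A = c + 9 H ∈ ℤ⟦X⟧`, `U = U_p A`.  The weight four form `F = (p² G² - c² E₄) / 3` has expansions
`AF` at `∞` and `B₀(X^p) + 3 B₁` at `0`, where `AF, B₀, B₁ ∈ ℤ⟦X⟧`, `B₀ = -80 c² ∑ σ₃(n) Xⁿ`.
-/

set_option autoImplicit false

namespace Fermat.Agent.S16

open ModularCurve

/-- `∑_{n ≥ 1} σ₃(n) Xⁿ`. -/
noncomputable def sigma3Series : PowerSeries ℤ :=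
  PowerSeries.mk fun n => if n = 0 then 0 else ∑ d ∈ n.divisors, (d : ℤ) ^ 3

lemma eisenstein4_eq : eisenstein4 = 1 + PowerSeries.C (240 : ℤ) * sigma3Series := by
  ext n
  by_cases hn : n = 0
  · subst hn
    simp [eisenstein4, sigma3Series]
  · rw [eisenstein4, PowerSeries.coeff_mk, if_neg hn, map_add, PowerSeries.coeff_one, if_neg hn,
      zero_add, PowerSeries.coeff_C_mul, sigma3Series, PowerSeries.coeff_mk, if_neg hn]

lemma coeff_zero_sigma3Series : sigma3Series.coeff 0 = 0 := by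
  simp [sigma3Series]

lemma coeff_one_sigma3Series : sigma3Series.coeff 1 = 1 := by
  simp [sigma3Series]

/-- A power series all of whose coefficients are divisible by `m` is `m` times a power series. -/
lemma exists_eq_C_mul_of_dvd (m : ℤ) (R : PowerSeries ℤ) (h : ∀ n : ℕ, m ∣ R.coeff n) :
    ∃ Q : PowerSeries ℤ, R = PowerSeries.C m * Q := by
  choose q hq using h
  refine ⟨PowerSeries.mk q, ?_⟩
  ext n
  rw [PowerSeries.coeff_C_mul, PowerSeries.coeff_mk, hq n]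

/-- The expansion at `∞` of `F = (p² G² - c² E₄)/3`. -/
theorem exists_AF (p : ℕ) (hp3 : ¬ (3 : ℤ) ∣ (p : ℤ)) (A : PowerSeries ℤ)
    (h9 : ∀ n : ℕ, 1 ≤ n → (9 : ℤ) ∣ A.coeff n) :
    ∃ AF : PowerSeries ℤ,
      PowerSeries.C ((p : ℤ) ^ 2) * A ^ 2 - PowerSeries.C ((A.coeff 0) ^ 2) * eisenstein4 =
        PowerSeries.C (3 : ℤ) * AF ∧
      (3 : ℤ) ∣ AF.coeff 1 + 80 * (A.coeff 0) ^ 2 := by
  have h3 : ∀ n : ℕ, 1 ≤ n → (3 : ℤ) ∣ A.coeff n := fun n hn =>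
    Dvd.dvd.trans (by norm_num) (h9 n hn)
  have hsq : ∀ n : ℕ, 1 ≤ n → (9 : ℤ) ∣ (A ^ 2).coeff n := by
    intro n hn
    have h1 := sq_coeff_mod9 A h3 n hn
    have h2 : (9 : ℤ) ∣ 2 * A.coeff 0 * A.coeff n := Dvd.dvd.mul_left (h9 n hn) _
    have := dvd_add h1 h2
    simpa using this
  have hp2 : (3 : ℤ) ∣ (p : ℤ) ^ 2 - 1 := by
    have h1 : (p : ℤ) % 3 = 1 ∨ (p : ℤ) % 3 = 2 := by omega
    have e : (p : ℤ) ^ 2 - 1 = ((p : ℤ) - 1) * ((p : ℤ) + 1) := by ring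
    rw [e]
    rcases h1 with h | h
    · exact Dvd.dvd.mul_right (by omega) _
    · exact Dvd.dvd.mul_left (by omega) _
  have hcoeff0 : (PowerSeries.C ((p : ℤ) ^ 2) * A ^ 2 -
      PowerSeries.C ((A.coeff 0) ^ 2) * eisenstein4).coeff 0 =
      (A.coeff 0) ^ 2 * ((p : ℤ) ^ 2 - 1) := by
    rw [map_sub, PowerSeries.coeff_C_mul, PowerSeries.coeff_C_mul, eisenstein4,
      PowerSeries.coeff_mk, if_pos rfl, PowerSeries.coeff_zero_eq_constantCoeff, map_pow,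
      ← PowerSeries.coeff_zero_eq_constantCoeff_apply]
    ring
  have hcoeffn : ∀ n : ℕ, 1 ≤ n → (PowerSeries.C ((p : ℤ) ^ 2) * A ^ 2 -
      PowerSeries.C ((A.coeff 0) ^ 2) * eisenstein4).coeff n =
      (p : ℤ) ^ 2 * (A ^ 2).coeff n -
        (A.coeff 0) ^ 2 * (240 * ∑ d ∈ n.divisors, (d : ℤ) ^ 3) := by
    intro n hn
    have hn0 : n ≠ 0 := by omega
    rw [map_sub, PowerSeries.coeff_C_mul, PowerSeries.coeff_C_mul, eisenstein4,
      PowerSeries.coeff_mk, if_neg hn0]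
  obtain ⟨AF, hAF⟩ := exists_eq_C_mul_of_dvd 3 (PowerSeries.C ((p : ℤ) ^ 2) * A ^ 2 -
      PowerSeries.C ((A.coeff 0) ^ 2) * eisenstein4) (by
    intro n
    by_cases hn : n = 0
    · subst hn
      rw [hcoeff0]
      exact Dvd.dvd.mul_left hp2 _
    · rw [hcoeffn n (by omega)]
      obtain ⟨x, hx⟩ := hsq n (by omega)
      rw [hx]
      exact ⟨(p : ℤ) ^ 2 * (3 * x) - (A.coeff 0) ^ 2 * (80 * ∑ d ∈ n.divisors, (d : ℤ) ^ 3),
        by ring⟩)
  refine ⟨AF, hAF, ?_⟩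
  have h1 := congrArg (PowerSeries.coeff 1) hAF
  rw [hcoeffn 1 le_rfl, PowerSeries.coeff_C_mul] at h1
  simp only [Nat.divisors_one, Finset.sum_singleton, Nat.cast_one, one_pow, mul_one] at h1
  obtain ⟨x, hx⟩ := hsq 1 le_rfl
  rw [hx] at h1
  refine ⟨(p : ℤ) ^ 2 * x, ?_⟩
  linarith

/-- The expansion at `0` of `F = (p² G² - c² E₄)/3`. -/
theorem exists_B1 (p : ℕ) (hp : p ≠ 0) (U : PowerSeries ℤ)
    (h9 : ∀ n : ℕ, 1 ≤ n → (9 : ℤ) ∣ U.coeff n) :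
    ∃ B₁ : PowerSeries ℤ,
      U ^ 2 - PowerSeries.C ((U.coeff 0) ^ 2) * PowerSeries.expand p hp eisenstein4 =
        PowerSeries.C (3 : ℤ) *
          (PowerSeries.expand p hp (PowerSeries.C (-80 * (U.coeff 0) ^ 2) * sigma3Series) +
            PowerSeries.C (3 : ℤ) * B₁) := by
  obtain ⟨c, hc⟩ : ∃ c : ℤ, c = U.coeff 0 := ⟨_, rfl⟩
  obtain ⟨H, hH⟩ : ∃ H : PowerSeries ℤ, U - PowerSeries.C c = PowerSeries.C (9 : ℤ) * H := by
    refine exists_eq_C_mul_of_dvd 9 _ fun n => ?_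
    by_cases hn : n = 0
    · subst hn
      simp [hc]
    · rw [map_sub, PowerSeries.coeff_C, if_neg hn, sub_zero]
      exact h9 n (by omega)
  have hU : U = PowerSeries.C c + PowerSeries.C (9 : ℤ) * H := by
    rw [← hH]; ring
  refine ⟨PowerSeries.C (2 * c) * H + PowerSeries.C (9 : ℤ) * H ^ 2, ?_⟩
  rw [← hc, eisenstein4_eq]
  have e9 : (PowerSeries.C (9 : ℤ) : PowerSeries ℤ) = PowerSeries.C 3 * PowerSeries.C 3 := by
    rw [← map_mul]; norm_num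
  have e240 : (PowerSeries.C (240 : ℤ) : PowerSeries ℤ) =
      PowerSeries.C 3 * PowerSeries.C 80 := by
    rw [← map_mul]; norm_num
  have e2 : (PowerSeries.C (2 * c) : PowerSeries ℤ) = 2 * PowerSeries.C c := by
    rw [map_mul]; simp
  have e80 : (PowerSeries.C (-80 * c ^ 2) : PowerSeries ℤ) =
      -(PowerSeries.C 80 * PowerSeries.C c ^ 2) := by
    rw [map_mul, map_neg, map_pow]; ring
  have ecc : (PowerSeries.C (c ^ 2) : PowerSeries ℤ) = PowerSeries.C c ^ 2 := map_pow _ _ _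
  conv_lhs => rw [hU]
  simp only [map_add, map_mul, map_one, PowerSeries.expand_C, e9, e240, e2, e80, ecc, map_neg,
    map_pow]
  ring

end Fermat.Agent.S16
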